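import Mathlib
import Fermat.Agent.LT.T7.H561.OpsSpec
import Fermat.Agent.LT.T5.H415.AutT5
import Fermat.Agent.LT.H129.ResidueCard
import Fermat.Agent.LT.H942.AdelicComp

/-!
# Row LT, tower T7, leaf T7.L2.2.B4.7 = OPS-SIGMA (helper215): local part

OFF-MAIN.  Every proof is complete, nothing assumed.  ADDITIVE (new names only, all ending in
`215`).  Vocabulary: A0, `T5/Spec.lean`, assets helper415 (`T5/H415/AutT5.lean`), helper129
(`H129/ResidueCard.lean`), helper942 (`H942/AdelicComp.lean`), byte-identical copies.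

* `invAut215 s`: the inverse of an `AdelicAut`; `(invAut215 s).onG = s.onGinv`;
* `isLocalAtFin_onGinv215`: `σ⁻¹` maps an element supported at `σ v` to an element supported at `v`;
* `finComp_onGinv_one215`, `finComp_onGinv_zero215`, `valued_onGinv215`: the entries;
* `inIwahori_of_triv215`, `inIwahori_lower215`, `inIwahori_diag215`: Iwahori membership;
* `absNorm_placeRel215`: `N (σ v) = N v`;
* `exists_residue215`: a system of `N v` pairwise inequivalent elements `!![a,1;1,0]` is complete.
-/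

set_option autoImplicit false

open AutomorphicForm IsDedekindDomain NumberField
open scoped Matrix

noncomputable section

namespace Fermat.Agent.LT.T7.H215

open Fermat.Agent.LT.H556 Fermat.Agent.LT.H556.A0 Fermat.Agent.LT.T5 Fermat.Agent.LT.T5.H415
open Fermat.Agent.LT.H415 Fermat.Agent.LT.H942

variable {K : Type} [Field K] [NumberField K]

/-! ## The inverse automorphism -/

/-- The inverse of an adelic automorphism. -/
def invAut215 (s : AdelicAut K) : AdelicAut K where
  σ := s.σ.symm
  σA := s.σA.symm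
  continuous_σA := s.continuous_symm
  continuous_symm := s.continuous_σA
  compat := fun x => by
    rw [RingEquiv.symm_apply_eq, s.compat, RingEquiv.apply_symm_apply]

theorem invAut_onG215 (s : AdelicAut K) (g : G K) : (invAut215 s).onG g = s.onGinv g := rfl

theorem placeRel_inv215 (s : AdelicAut K) (v v' : HeightOneSpectrum (𝓞 K))
    (h : PlaceRel s v v') : PlaceRel (invAut215 s) v' v :=
  finRel_symm415 s.σ v v' h

theorem onG_onGinv215 (s : AdelicAut K) (g : G K) : s.onG (s.onGinv g) = g := by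
  apply Units.ext
  ext i j
  exact s.σA.apply_symm_apply _

/-! ## Triviality and locality -/

theorem trivAtFin_iff215 (v : HeightOneSpectrum (𝓞 K)) (g : G K) :
    TrivAtFin v g ↔ finComp v g = finComp v (1 : G K) := by
  rw [finComp_one942]
  rfl

theorem one_entry_inf215 (w : InfinitePlace K) (i j : Fin 2) :
    (((1 : G K) : Matrix (Fin 2) (Fin 2) (Adl K)) i j).1 w
      = (1 : Matrix (Fin 2) (Fin 2) w.Completion) i j := by
  rw [Units.val_one, Matrix.one_apply, Matrix.one_apply]
  split_ifs <;> rfl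

theorem trivAtInf_iff215 (w : InfinitePlace K) (g : G K) :
    TrivAtInf w g ↔ infComp w g = infComp w (1 : G K) := by
  rw [infComp_eq_iff415]
  constructor
  · intro h i j
    rw [h i j, one_entry_inf215]
  · intro h i j
    rw [h i j, one_entry_inf215]

/-- `σ⁻¹` maps an element supported at `σ v` to an element supported at `v`. -/
theorem isLocalAtFin_onGinv215 (s : AdelicAut K) (v v' : HeightOneSpectrum (𝓞 K))
    (h : PlaceRel s v v') (g : G K) (hg : IsLocalAtFin v' g) :
    IsLocalAtFin v (s.onGinv g) := by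
  refine ⟨fun w => ?_, fun u hu => ?_⟩
  · obtain ⟨w₀, rfl⟩ := infImage_surjective415 (invAut215 s).σ w
    rw [trivAtInf_iff215]
    have h1 := infComp_onG_congr415 (invAut215 s) w₀ g 1 ((trivAtInf_iff215 w₀ g).1 (hg.1 w₀))
    rw [map_one] at h1
    exact h1
  · obtain ⟨u', hu'⟩ := finRel_exists_image415 s.σ u
    have hne : u' ≠ v' := by
      rintro rfl
      exact hu (finRel_inj415 s.σ u v u' hu' h)
    rw [trivAtFin_iff215]
    have h1 := finComp_onG_congr415 (invAut215 s) u' u (placeRel_inv215 s u u' hu') g 1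
      ((trivAtFin_iff215 u' g).1 (hg.2 u' hne))
    rw [map_one] at h1
    exact h1

/-! ## The entries at the place -/

theorem valued_onGinv215 (s : AdelicAut K) (v v' : HeightOneSpectrum (𝓞 K))
    (h : PlaceRel s v v') (g : G K) (i j : Fin 2) :
    Valued.v (finComp v (s.onGinv g) i j) = Valued.v (finComp v' g i j) :=
  valued_onG415 (invAut215 s) v' v (placeRel_inv215 s v v' h) g i j

theorem finComp_onGinv_entry215 (s : AdelicAut K) (v v' : HeightOneSpectrum (𝓞 K))
    (h : PlaceRel s v v') (g : G K) (i j : Fin 2) (b : Adl K)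
    (hb : finComp v' g i j = b.2 v') :
    finComp v (s.onGinv g) i j = (s.σA.symm b).2 v :=
  tau_fin_congr415 (invAut215 s).σ (hom415 (invAut215 s)) (continuous_hom415 (invAut215 s))
    (compat_hom415 (invAut215 s)) (injective_hom415 (invAut215 s)) v' v
    (placeRel_inv215 s v v' h) _ _ hb

theorem finComp_onGinv_one215 (s : AdelicAut K) (v v' : HeightOneSpectrum (𝓞 K))
    (h : PlaceRel s v v') (g : G K) (i j : Fin 2) (hb : finComp v' g i j = 1) :
    finComp v (s.onGinv g) i j = 1 := by
  have := finComp_onGinv_entry215 s v v' h g i j 1 (by rw [hb]; rfl)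
  rw [map_one] at this
  exact this

theorem finComp_onGinv_zero215 (s : AdelicAut K) (v v' : HeightOneSpectrum (𝓞 K))
    (h : PlaceRel s v v') (g : G K) (i j : Fin 2) (hb : finComp v' g i j = 0) :
    finComp v (s.onGinv g) i j = 0 := by
  have := finComp_onGinv_entry215 s v v' h g i j 0 (by rw [hb]; rfl)
  rw [map_zero] at this
  exact this

/-! ## Iwahori membership -/

theorem finComp_inv_eq215 (v : HeightOneSpectrum (𝓞 K)) (g : G K)
    (N : Matrix (Fin 2) (Fin 2) (v.adicCompletion K)) (h : finComp v g * N = 1) :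
    finComp v g⁻¹ = N := by
  have h1 := finComp_inv_mul942 v g
  calc finComp v g⁻¹ = finComp v g⁻¹ * (finComp v g * N) := by rw [h, mul_one]
    _ = (finComp v g⁻¹ * finComp v g) * N := by rw [mul_assoc]
    _ = N := by rw [h1, one_mul]

theorem isIntegralAt_of_eq215 (v : HeightOneSpectrum (𝓞 K)) (g : G K)
    (M : Matrix (Fin 2) (Fin 2) (v.adicCompletion K)) (h : finComp v g = M)
    (h00 : Valued.v (M 0 0) ≤ 1) (h01 : Valued.v (M 0 1) ≤ 1) (h10 : Valued.v (M 1 0) ≤ 1)
    (h11 : Valued.v (M 1 1) ≤ 1) : IsIntegralAt v g := by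
  intro i j
  rw [h, HeightOneSpectrum.mem_adicCompletionIntegers]
  fin_cases i <;> fin_cases j
  · exact h00
  · exact h01
  · exact h10
  · exact h11

/-- An element which is trivial at `v` lies in the Iwahori subgroup at `v`. -/
theorem inIwahori_of_triv215 (v : HeightOneSpectrum (𝓞 K)) (u : G K) (h : TrivAtFin v u) :
    InIwahori v u := by
  have h1 : finComp v u = 1 := h
  have h2 : finComp v u⁻¹ = 1 := finComp_inv_eq215 v u 1 (by rw [h1, mul_one])
  refine ⟨isIntegralAt_of_eq215 v u 1 h1 ?_ ?_ ?_ ?_, isIntegralAt_of_eq215 v u⁻¹ 1 h2 ?_ ?_ ?_ ?_,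
    ?_⟩
  all_goals first
    | (rw [h1]; simp)
    | simp

/-- The lower unipotent elements with lower left entry in the maximal ideal. -/
theorem inIwahori_lower215 (v : HeightOneSpectrum (𝓞 K)) (u : G K) (d : v.adicCompletion K)
    (hd : Valued.v d < 1) (h : finComp v u = !![1, 0; d, 1]) : InIwahori v u := by
  have h2 : finComp v u⁻¹ = !![1, 0; -d, 1] := by
    apply finComp_inv_eq215
    rw [h]
    ext i j
    fin_cases i <;> fin_cases j <;> simp [Matrix.mul_apply, Fin.sum_univ_two]
  refine ⟨isIntegralAt_of_eq215 v u _ h ?_ ?_ ?_ ?_, isIntegralAt_of_eq215 v u⁻¹ _ h2 ?_ ?_ ?_ ?_,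
    ?_⟩
  all_goals first
    | (rw [h]; simpa using hd)
    | (simpa using hd.le)
    | simp

/-- The diagonal elements `diag(e, 1)`, `e` a unit. -/
theorem inIwahori_diag215 (v : HeightOneSpectrum (𝓞 K)) (u : G K) (e : v.adicCompletion K)
    (he : Valued.v e = 1) (h : finComp v u = !![e, 0; 0, 1]) : InIwahori v u := by
  have hne : e ≠ 0 := by
    rintro rfl
    rw [map_zero] at he
    exact zero_ne_one he
  have h2 : finComp v u⁻¹ = !![e⁻¹, 0; 0, 1] := by
    apply finComp_inv_eq215
    rw [h]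
    ext i j
    fin_cases i <;> fin_cases j <;> simp [Matrix.mul_apply, Fin.sum_univ_two, hne]
  refine ⟨isIntegralAt_of_eq215 v u _ h ?_ ?_ ?_ ?_, isIntegralAt_of_eq215 v u⁻¹ _ h2 ?_ ?_ ?_ ?_,
    ?_⟩
  all_goals first
    | (rw [h]; simp)
    | (simp [he])
    | simp

/-- The quotient of two elements `!![a,1;1,0]`. -/
theorem finComp_inv_mul_s215 (v : HeightOneSpectrum (𝓞 K)) (g₁ g₂ : G K)
    (a₁ a₂ : v.adicCompletion K) (h₁ : finComp v g₁ = !![a₁, 1; 1, 0])
    (h₂ : finComp v g₂ = !![a₂, 1; 1, 0]) :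
    finComp v (g₁⁻¹ * g₂) = !![1, 0; a₂ - a₁, 1] := by
  have h3 : finComp v g₁⁻¹ = !![0, 1; 1, -a₁] := by
    apply finComp_inv_eq215
    rw [h₁]
    ext i j
    fin_cases i <;> fin_cases j <;> simp [Matrix.mul_apply, Fin.sum_univ_two]
  rw [finComp_mul942, h3, h₂, Matrix.mul_fin_two]
  simp only [zero_mul, one_mul, mul_one, mul_zero, zero_add, add_zero, sub_eq_add_neg]

theorem inIwahori_s_iff215 (v : HeightOneSpectrum (𝓞 K)) (g₁ g₂ : G K)
    (a₁ a₂ : v.adicCompletion K) (h₁ : finComp v g₁ = !![a₁, 1; 1, 0])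
    (h₂ : finComp v g₂ = !![a₂, 1; 1, 0]) :
    InIwahori v (g₁⁻¹ * g₂) ↔ Valued.v (a₂ - a₁) < 1 := by
  have h := finComp_inv_mul_s215 v g₁ g₂ a₁ a₂ h₁ h₂
  constructor
  · intro hI
    have := hI.2.2
    rw [h] at this
    simpa using this
  · intro hd
    exact inIwahori_lower215 v _ _ hd h

/-- The quotient of two elements `!![0,1;c,0]`. -/
theorem finComp_inv_mul_w215 (v : HeightOneSpectrum (𝓞 K)) (g₁ g₂ : G K)
    (c₁ c₂ : v.adicCompletion K) (hc₁ : c₁ ≠ 0) (h₁ : finComp v g₁ = !![0, 1; c₁, 0])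
    (h₂ : finComp v g₂ = !![0, 1; c₂, 0]) :
    finComp v (g₁⁻¹ * g₂) = !![c₁⁻¹ * c₂, 0; 0, 1] := by
  have h3 : finComp v g₁⁻¹ = !![0, c₁⁻¹; 1, 0] := by
    apply finComp_inv_eq215
    rw [h₁]
    ext i j
    fin_cases i <;> fin_cases j <;> simp [Matrix.mul_apply, Fin.sum_univ_two, hc₁]
  rw [finComp_mul942, h3, h₂]
  ext i j
  fin_cases i <;> fin_cases j <;> simp [Matrix.mul_apply, Fin.sum_univ_two]

/-- The product of two elements supported at `v` is supported at `v`. -/
theorem isLocalAtFin_inv_mul215 (v : HeightOneSpectrum (𝓞 K)) (g₁ g₂ : G K)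
    (h₁ : IsLocalAtFin v g₁) (h₂ : IsLocalAtFin v g₂) : IsLocalAtFin v (g₁⁻¹ * g₂) := by
  refine ⟨fun w => ?_, fun u hu => ?_⟩
  · rw [trivAtInf_iff215, infComp_mul942, infComp_one942]
    have e1 : infComp w g₁ = 1 := by
      rw [(trivAtInf_iff215 w g₁).1 (h₁.1 w), infComp_one942]
    have e2 : infComp w g₂ = 1 := by
      rw [(trivAtInf_iff215 w g₂).1 (h₂.1 w), infComp_one942]
    have e3 : infComp w g₁⁻¹ = 1 := by
      have := infComp_inv_mul942 w g₁
      rw [e1, mul_one] at this
      exact this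
    rw [e3, e2, mul_one]
  · have e1 : finComp u g₁ = 1 := h₁.2 u hu
    have e2 : finComp u g₂ = 1 := h₂.2 u hu
    have e3 : finComp u g₁⁻¹ = 1 := finComp_inv_eq215 u g₁ 1 (by rw [e1, mul_one])
    show finComp u (g₁⁻¹ * g₂) = 1
    rw [finComp_mul942, e3, e2, mul_one]

/-! ## The norm of `σ v` -/

theorem absNorm_placeRel215 (s : AdelicAut K) (v v' : HeightOneSpectrum (𝓞 K))
    (h : PlaceRel s v v') : Ideal.absNorm v'.asIdeal = Ideal.absNorm v.asIdeal := by
  have h' : v'.asIdeal = Ideal.map (NumberField.RingOfIntegers.mapRingEquiv s.σ) v.asIdeal := h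
  rw [Ideal.absNorm_apply, Ideal.absNorm_apply, Submodule.cardQuot_apply,
    Submodule.cardQuot_apply]
  exact (Nat.card_congr (Ideal.quotientEquiv v.asIdeal v'.asIdeal
    (NumberField.RingOfIntegers.mapRingEquiv s.σ) h').toEquiv).symm

/-! ## A system of `N v` pairwise inequivalent elements `!![a,1;1,0]` is complete -/

theorem entry_of_s215 (v : HeightOneSpectrum (𝓞 K)) (h : G K) (a : v.adicCompletion K)
    (ha : finComp v h = !![a, 1; 1, 0]) : finComp v h 0 0 = a := by
  rw [ha]
  rfl

theorem exists_residue215 (v : HeightOneSpectrum (𝓞 K)) (H : Finset (G K))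
    (hcard : H.card = Ideal.absNorm v.asIdeal)
    (hcomp : ∀ h ∈ H, ∃ a : v.adicCompletion K,
      a ∈ v.adicCompletionIntegers K ∧ finComp v h = !![a, 1; 1, 0])
    (hinj : ∀ h ∈ H, ∀ h' ∈ H, h ≠ h' → ¬ InIwahori v (h⁻¹ * h'))
    (a' : v.adicCompletion K) (ha' : Valued.v a' ≤ 1) :
    ∃ h ∈ H, Valued.v (a' - finComp v h 0 0) < 1 := by
  classical
  haveI : Finite (IsLocalRing.ResidueField (v.adicCompletionIntegers K)) :=
    Fermat.Agent.LT.H129.finite_residueField129 K v
  haveI : Fintype (IsLocalRing.ResidueField (v.adicCompletionIntegers K)) := Fintype.ofFinite _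
  -- the residue of the upper left entry
  let r : G K → IsLocalRing.ResidueField (v.adicCompletionIntegers K) := fun h =>
    if hh : Valued.v (finComp v h 0 0) ≤ 1 then
      IsLocalRing.residue (v.adicCompletionIntegers K)
        ⟨finComp v h 0 0, (HeightOneSpectrum.mem_adicCompletionIntegers _ _ _).2 hh⟩
    else 0
  have hr : ∀ h ∈ H, ∀ hh : Valued.v (finComp v h 0 0) ≤ 1, r h =
      IsLocalRing.residue (v.adicCompletionIntegers K)
        ⟨finComp v h 0 0, (HeightOneSpectrum.mem_adicCompletionIntegers _ _ _).2 hh⟩ := by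
    intro h _ hh
    simp only [r, dif_pos hh]
  have hint : ∀ h ∈ H, Valued.v (finComp v h 0 0) ≤ 1 := by
    intro h hh
    obtain ⟨a, ha, hM⟩ := hcomp h hh
    rw [entry_of_s215 v h a hM]
    exact (HeightOneSpectrum.mem_adicCompletionIntegers _ _ _).1 ha
  have hres : ∀ (x y : v.adicCompletion K) (hx : Valued.v x ≤ 1) (hy : Valued.v y ≤ 1),
      IsLocalRing.residue (v.adicCompletionIntegers K)
          ⟨x, (HeightOneSpectrum.mem_adicCompletionIntegers _ _ _).2 hx⟩
        = IsLocalRing.residue (v.adicCompletionIntegers K)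
          ⟨y, (HeightOneSpectrum.mem_adicCompletionIntegers _ _ _).2 hy⟩ →
      Valued.v (y - x) < 1 := by
    intro x y hx hy hxy
    have h0 : IsLocalRing.residue (v.adicCompletionIntegers K)
        (⟨y, (HeightOneSpectrum.mem_adicCompletionIntegers _ _ _).2 hy⟩
          - ⟨x, (HeightOneSpectrum.mem_adicCompletionIntegers _ _ _).2 hx⟩) = 0 := by
      rw [map_sub, hxy, sub_self]
    have := (Fermat.Agent.LT.H129.residue_eq_zero_iff_valued129 K v _).1 h0
    exact this
  have hrinj : Set.InjOn r (H : Set (G K)) := by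
    intro h hh h' hh' hrr
    by_contra hne
    apply hinj h hh h' hh' hne
    obtain ⟨a, _, hM⟩ := hcomp h hh
    obtain ⟨b, _, hM'⟩ := hcomp h' hh'
    rw [inIwahori_s_iff215 v h h' a b hM hM']
    have e1 := hr h hh (hint h hh)
    have e2 := hr h' hh' (hint h' hh')
    have := hres _ _ (hint h hh) (hint h' hh') (by rw [← e1, ← e2, hrr])
    rw [entry_of_s215 v h a hM, entry_of_s215 v h' b hM'] at this
    exact this
  have himg : H.image r = Finset.univ := by
    apply Finset.eq_univ_of_card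
    rw [Finset.card_image_of_injOn hrinj, hcard, ← Fermat.Agent.LT.H129.card_residueField129 K v,
      Nat.card_eq_fintype_card]
  have hmem : IsLocalRing.residue (v.adicCompletionIntegers K)
      ⟨a', (HeightOneSpectrum.mem_adicCompletionIntegers _ _ _).2 ha'⟩ ∈ H.image r := by
    rw [himg]
    exact Finset.mem_univ _
  obtain ⟨h, hh, hrh⟩ := Finset.mem_image.1 hmem
  refine ⟨h, hh, ?_⟩
  have e1 := hr h hh (hint h hh)
  exact hres _ _ (hint h hh) ha' (by rw [← e1, hrh])

end Fermat.Agent.LT.T7.H215
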