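import Mathlib
import Fermat.Agent.LT.T7.H215.OpsSigLocal

/-!
# Row LT, tower T7, leaf T7.L2.2.B4.7 = OPS-SIGMA (helper215, registry row 2428)

OFF-MAIN.  Every proof is complete, nothing assumed.  ADDITIVE (new names only, all ending in
`215`).

    opsSigC215 K K' : T7.H561.OpsSigC561 K K'      VERBATIM (`T7/H561/OpsSpec.lean` of helper561)

Proof.  `R(σ) R(h) = R(σ h) R(σ)`: with `y = σ⁻¹ x`,
`(R(σ) S_j ψ)(x) = ∑_{h ∈ Hs j} ψ(y h)` and `(S_{j+1} R(σ) ψ)(x) = ∑_{h' ∈ Hs (j+1)} ψ(y σ⁻¹ h')`.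
The elements `σ⁻¹ h'` are supported at `o j` with components `!![a', 1; 1, 0]`, `a'` integral,
pairwise inequivalent modulo the Iwahori subgroup (`inIwahori_onG415`); `Hs j` is a complete
system (`exists_residue215`: the residue field has `N (o j)` elements), `N (o (j+1)) = N (o j)`,
so `h' ↦` the member of `Hs j` in the class of `σ⁻¹ h'` is a bijection, and `ψ` is invariant
under the Iwahori subgroup at `o j` (the orbit is periodic: `orbit_period415`).  The same for
`ω`: `(ω j)⁻¹ σ⁻¹(ω (j+1)) = diag(unit, 1)`.  (The hypothesis `BaseStable561` is not used.)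
-/

set_option autoImplicit false

open AutomorphicForm IsDedekindDomain NumberField
open scoped Matrix

noncomputable section

namespace Fermat.Agent.LT.T7.H215

open Fermat.Agent.LT.H556 Fermat.Agent.LT.H556.A0 Fermat.Agent.LT.T5 Fermat.Agent.LT.T5.H415
open Fermat.Agent.LT.H415 Fermat.Agent.LT.H942 Fermat.Agent.LT.T7

section OneField

variable {K : Type} [Field K] [NumberField K]

/-- Two systems at the same place define the same operator on the functions which are invariant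
under the Iwahori subgroup at that place. -/
theorem cosetSum_eq215 (v : HeightOneSpectrum (𝓞 K)) (H H' : Finset (G K)) (τ : G K → G K)
    (hcardH : H.card = Ideal.absNorm v.asIdeal) (hcardH' : H'.card = Ideal.absNorm v.asIdeal)
    (hcompH : ∀ h ∈ H, ∃ a : v.adicCompletion K,
      a ∈ v.adicCompletionIntegers K ∧ finComp v h = !![a, 1; 1, 0])
    (hlocH : ∀ h ∈ H, IsLocalAtFin v h)
    (hinjH : ∀ h ∈ H, ∀ h' ∈ H, h ≠ h' → ¬ InIwahori v (h⁻¹ * h'))
    (hcompH' : ∀ h ∈ H', ∃ a : v.adicCompletion K,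
      a ∈ v.adicCompletionIntegers K ∧ finComp v (τ h) = !![a, 1; 1, 0])
    (hlocH' : ∀ h ∈ H', IsLocalAtFin v (τ h))
    (hinjH' : ∀ h ∈ H', ∀ h' ∈ H', h ≠ h' → ¬ InIwahori v ((τ h)⁻¹ * τ h'))
    (ψ : G K → ℂ)
    (hψ : ∀ u : G K, IsLocalAtFin v u → InIwahori v u → ∀ y : G K, ψ (y * u) = ψ y)
    (y : G K) :
    ∑ h ∈ H, ψ (y * h) = ∑ h' ∈ H', ψ (y * τ h') := by
  classical
  -- the member of `H` in the class of `τ h'`
  have hex : ∀ h' ∈ H', ∃ h ∈ H, Valued.v (finComp v (τ h') 0 0 - finComp v h 0 0) < 1 := by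
    intro h' hh'
    obtain ⟨a, ha, hM⟩ := hcompH' h' hh'
    refine exists_residue215 v H hcardH hcompH hinjH _ ?_
    rw [entry_of_s215 v _ a hM]
    exact (HeightOneSpectrum.mem_adicCompletionIntegers _ _ _).1 ha
  let F : G K → G K := fun h' => if hh : h' ∈ H' then Classical.choose (hex h' hh) else 1
  have hF : ∀ h' ∈ H', F h' ∈ H ∧
      Valued.v (finComp v (τ h') 0 0 - finComp v (F h') 0 0) < 1 := by
    intro h' hh'
    have := Classical.choose_spec (hex h' hh')
    simp only [F, dif_pos hh']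
    exact ⟨this.1, this.2⟩
  -- equivalence
  have hIw : ∀ h' ∈ H', InIwahori v ((F h')⁻¹ * τ h') := by
    intro h' hh'
    obtain ⟨a, _, hM⟩ := hcompH (F h') (hF h' hh').1
    obtain ⟨b, _, hM'⟩ := hcompH' h' hh'
    rw [inIwahori_s_iff215 v (F h') (τ h') a b hM hM']
    have := (hF h' hh').2
    rw [entry_of_s215 v _ a hM, entry_of_s215 v _ b hM'] at this
    exact this
  have hval : ∀ h' ∈ H', ψ (y * τ h') = ψ (y * F h') := by
    intro h' hh'
    have h1 := hψ ((F h')⁻¹ * τ h')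
      (isLocalAtFin_inv_mul215 v _ _ (hlocH _ (hF h' hh').1) (hlocH' h' hh')) (hIw h' hh')
      (y * F h')
    rw [← h1]
    congr 1
    group
  -- injectivity
  have hFinj : Set.InjOn F (H' : Set (G K)) := by
    intro h₁ hh₁ h₂ hh₂ hFF
    by_contra hne
    apply hinjH' h₁ hh₁ h₂ hh₂ hne
    obtain ⟨a, _, hM⟩ := hcompH (F h₁) (hF h₁ hh₁).1
    obtain ⟨b₁, _, hM₁⟩ := hcompH' h₁ hh₁
    obtain ⟨b₂, _, hM₂⟩ := hcompH' h₂ hh₂
    rw [inIwahori_s_iff215 v (τ h₁) (τ h₂) b₁ b₂ hM₁ hM₂]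
    have e1 := (hF h₁ hh₁).2
    have e2 := (hF h₂ hh₂).2
    rw [← hFF] at e2
    rw [entry_of_s215 v _ a hM, entry_of_s215 v _ b₁ hM₁] at e1
    rw [entry_of_s215 v _ a hM, entry_of_s215 v _ b₂ hM₂] at e2
    have e3 : b₂ - b₁ = (b₂ - a) - (b₁ - a) := by ring
    rw [e3]
    exact lt_of_le_of_lt (Valuation.map_sub _ _ _) (max_lt e2 e1)
  -- the image
  have himg : H'.image F = H := by
    apply Finset.eq_of_subset_of_card_le
    · intro h hh
      obtain ⟨h', hh', rfl⟩ := Finset.mem_image.1 hh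
      exact (hF h' hh').1
    · rw [Finset.card_image_of_injOn hFinj, hcardH, hcardH']
  rw [← himg, Finset.sum_image hFinj]
  exact Finset.sum_congr rfl fun h' hh' => (hval h' hh').symm

/-- The orbit of `T5.RegularOfIwahori` is periodic. -/
theorem orbit_add_period215 (s : AdelicAut K) (l : ℕ) (k : Subfield K)
    (hc : IsCyclicOfDegree s l k) (o : ℕ → HeightOneSpectrum (𝓞 K))
    (ho : ∀ j : ℕ, PlaceRel s (o j) (o (j + 1))) (n : ℕ) : o (n + l) = o n := by
  have h := orbit_period415 s l k hc (fun m => o (n + m)) (fun m => ho (n + m))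
  exact h

theorem orbit_mod215 (s : AdelicAut K) (l : ℕ) (k : Subfield K)
    (hc : IsCyclicOfDegree s l k) (o : ℕ → HeightOneSpectrum (𝓞 K))
    (ho : ∀ j : ℕ, PlaceRel s (o j) (o (j + 1))) (n : ℕ) : o n = o (n % l) := by
  have h1 : ∀ q m : ℕ, o (m + q * l) = o m := by
    intro q
    induction q with
    | zero => intro m; simp
    | succ q ih =>
      intro m
      rw [Nat.succ_mul, ← add_assoc, orbit_add_period215 s l k hc o ho, ih]
  have h2 := h1 (n / l) (n % l)
  rw [Nat.mod_add_div' n l] at h2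
  exact h2

/-- Invariance under the Iwahori subgroups along the orbit, at ONE place of the orbit. -/
theorem iwInv_local215 (s : AdelicAut K) (l : ℕ) (k : Subfield K)
    (hc : IsCyclicOfDegree s l k) (o : ℕ → HeightOneSpectrum (𝓞 K))
    (ho : ∀ j : ℕ, PlaceRel s (o j) (o (j + 1))) (ψ : G K → ℂ) (hψ : IsIwInv l o ψ) (j : ℕ)
    (u : G K) (hu : IsLocalAtFin (o j) u) (hI : InIwahori (o j) u) (y : G K) :
    ψ (y * u) = ψ y := by
  have hj : o j = o (j % l) := orbit_mod215 s l k hc o ho j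
  have hlt : j % l < l := Nat.mod_lt _ hc.pos
  refine hψ u hu.1 (fun v hv => hu.2 v ?_) (fun j' _ => ?_) y
  · rw [hj]
    exact hv (j % l) hlt
  · by_cases h : o j' = o j
    · rw [h]
      exact hI
    · exact inIwahori_of_triv215 (o j') u (hu.2 (o j') h)

/-- The image under `σ⁻¹` of an element `!![a,1;1,0]` at `σ v`. -/
theorem finComp_onGinv_s215 (s : AdelicAut K) (v v' : HeightOneSpectrum (𝓞 K))
    (h : PlaceRel s v v') (g : G K) (a : v'.adicCompletion K)
    (ha : a ∈ v'.adicCompletionIntegers K) (hM : finComp v' g = !![a, 1; 1, 0]) :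
    ∃ b : v.adicCompletion K, b ∈ v.adicCompletionIntegers K ∧
      finComp v (s.onGinv g) = !![b, 1; 1, 0] := by
  refine ⟨finComp v (s.onGinv g) 0 0, ?_, ?_⟩
  · rw [HeightOneSpectrum.mem_adicCompletionIntegers, valued_onGinv215 s v v' h g 0 0,
      entry_of_s215 v' g a hM]
    exact (HeightOneSpectrum.mem_adicCompletionIntegers _ _ _).1 ha
  · have h01 : finComp v (s.onGinv g) 0 1 = 1 :=
      finComp_onGinv_one215 s v v' h g 0 1 (by rw [hM]; rfl)
    have h10 : finComp v (s.onGinv g) 1 0 = 1 :=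
      finComp_onGinv_one215 s v v' h g 1 0 (by rw [hM]; rfl)
    have h11 : finComp v (s.onGinv g) 1 1 = 0 :=
      finComp_onGinv_zero215 s v v' h g 1 1 (by rw [hM]; rfl)
    have e := Matrix.eta_fin_two (finComp v (s.onGinv g))
    rw [h01, h10, h11] at e
    exact e

/-- The image under `σ⁻¹` of an element `!![0,1;c,0]` at `σ v`. -/
theorem finComp_onGinv_w215 (s : AdelicAut K) (v v' : HeightOneSpectrum (𝓞 K))
    (h : PlaceRel s v v') (g : G K) (c : v'.adicCompletion K)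
    (hc : Valued.v c = WithZero.exp (-1 : ℤ)) (hM : finComp v' g = !![0, 1; c, 0]) :
    ∃ b : v.adicCompletion K, Valued.v b = WithZero.exp (-1 : ℤ) ∧
      finComp v (s.onGinv g) = !![0, 1; b, 0] := by
  refine ⟨finComp v (s.onGinv g) 1 0, ?_, ?_⟩
  · rw [valued_onGinv215 s v v' h g 1 0]
    have : finComp v' g 1 0 = c := by rw [hM]; rfl
    rw [this, hc]
  · have h00 : finComp v (s.onGinv g) 0 0 = 0 :=
      finComp_onGinv_zero215 s v v' h g 0 0 (by rw [hM]; rfl)
    have h01 : finComp v (s.onGinv g) 0 1 = 1 :=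
      finComp_onGinv_one215 s v v' h g 0 1 (by rw [hM]; rfl)
    have h11 : finComp v (s.onGinv g) 1 1 = 0 :=
      finComp_onGinv_zero215 s v v' h g 1 1 (by rw [hM]; rfl)
    have e := Matrix.eta_fin_two (finComp v (s.onGinv g))
    rw [h00, h01, h11] at e
    exact e

theorem inIwahori_onGinv215 (s : AdelicAut K) (v v' : HeightOneSpectrum (𝓞 K))
    (h : PlaceRel s v v') (g : G K) : InIwahori v (s.onGinv g) ↔ InIwahori v' g :=
  inIwahori_onG415 (invAut215 s) v' v (placeRel_inv215 s v v' h) g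

end OneField

section Main

variable (K K' : Type) [Field K] [NumberField K] [Field K'] [NumberField K'] [Algebra K K']

theorem isBad_one215 (Dt : L2Data K K') : Dt.IsBad 1 :=
  ⟨fun w i j => one_entry_inf215 w i j, fun v _ => finComp_one942 v⟩

/-- **LEAF T7.L2.2.B4.7 = OPS-SIGMA**, VERBATIM. -/
theorem opsSigC215 : H561.OpsSigC561 K K' := by
  intro ℓ Φ Dt hs _ Hs ω hsys j ψ hψ x
  have hD := hs.data
  have hcyc : IsCyclicOfDegree Dt.s ℓ Dt.k := by
    have h1 := (hD.comp 1 (isBad_one215 K K' Dt)).cyc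
    have h2 : (Dt.comp 1).l = ℓ := hD.deg
    rw [h2] at h1
    exact h1
  have hrel := hD.orbit_rel
  have hinv : ∀ u : G K', IsLocalAtFin (Dt.o j) u → InIwahori (Dt.o j) u →
      ∀ y : G K', ψ (y * u) = ψ y :=
    fun u hu hI y => iwInv_local215 Dt.s ℓ Dt.k hcyc Dt.o hrel ψ hψ.iw j u hu hI y
  constructor
  · show ∑ h ∈ Hs j, ψ (Dt.s.onGinv x * h)
      = ∑ h ∈ Hs (j + 1), ψ (Dt.s.onGinv (x * h))
    simp only [map_mul]
    refine cosetSum_eq215 (Dt.o j) (Hs j) (Hs (j + 1)) (fun h => Dt.s.onGinv h)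
      (hsys.Hs_card j) ?_ (hsys.Hs_comp j) (hsys.Hs_local j) (hsys.Hs_inj j) ?_ ?_ ?_ ψ hinv _
    · rw [hsys.Hs_card (j + 1)]
      exact absNorm_placeRel215 Dt.s _ _ (hrel j)
    · intro h hh
      obtain ⟨a, ha, hM⟩ := hsys.Hs_comp (j + 1) h hh
      exact finComp_onGinv_s215 Dt.s _ _ (hrel j) h a ha hM
    · intro h hh
      exact isLocalAtFin_onGinv215 Dt.s _ _ (hrel j) h (hsys.Hs_local (j + 1) h hh)
    · intro h₁ hh₁ h₂ hh₂ hne hI
      apply hsys.Hs_inj (j + 1) h₁ hh₁ h₂ hh₂ hne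
      have e : (Dt.s.onGinv h₁)⁻¹ * Dt.s.onGinv h₂ = Dt.s.onGinv (h₁⁻¹ * h₂) := by
        rw [map_mul, map_inv]
      have hI' : InIwahori (Dt.o j) (Dt.s.onGinv (h₁⁻¹ * h₂)) := by
        rw [← e]
        exact hI
      exact (inIwahori_onGinv215 Dt.s _ _ (hrel j) _).1 hI'
  · show ψ (Dt.s.onGinv x * ω j) = ψ (Dt.s.onGinv (x * ω (j + 1)))
    rw [map_mul]
    obtain ⟨c, hc, hM⟩ := hsys.ω_comp j
    obtain ⟨c₁, hc₁, hM₁⟩ := hsys.ω_comp (j + 1)
    obtain ⟨b, hb, hMb⟩ := finComp_onGinv_w215 Dt.s _ _ (hrel j) (ω (j + 1)) c₁ hc₁ hM₁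
    have hcne : c ≠ 0 := by
      rintro rfl
      rw [map_zero] at hc
      exact WithZero.exp_ne_zero hc.symm
    have hu := finComp_inv_mul_w215 (Dt.o j) (ω j) (Dt.s.onGinv (ω (j + 1))) c b hcne hM hMb
    have he : Valued.v (c⁻¹ * b) = 1 := by
      rw [map_mul, map_inv₀, hc, hb]
      exact inv_mul_cancel₀ WithZero.exp_ne_zero
    have hI := inIwahori_diag215 (Dt.o j) _ _ he hu
    have hloc := isLocalAtFin_inv_mul215 (Dt.o j) (ω j) (Dt.s.onGinv (ω (j + 1)))
      (hsys.ω_local j) (isLocalAtFin_onGinv215 Dt.s _ _ (hrel j) _ (hsys.ω_local (j + 1)))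
    have h1 := hinv _ hloc hI (Dt.s.onGinv x * ω j)
    rw [← h1]
    congr 1
    group

end Main

end Fermat.Agent.LT.T7.H215
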